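import Fermat.Agent.Lib.S23.Defs
import Fermat.Prelude.Thm_CongruenceSubgroup_one_mem_strictPeriods_Gamma0

/-!
# Project S23: assembly of the integral structure from the contracts (owner: lead)
-/

set_option autoImplicit false

noncomputable section

namespace Fermat.Agent.Lib.S23

open AlgebraicCurve ModularCurve KaehlerDifferential UpperHalfPlane ModularFormClass
open CongruenceSubgroup
open Fermat.Agent.Lib.X0 Fermat.Agent.Lib.S20
open scoped MatrixGroups

variable {N : ℕ}

theorem s23_one_mem_sp :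
    (1 : ℝ) ∈ ((Gamma0 N : Subgroup (Matrix.GeneralLinearGroup (Fin 2) ℝ))).strictPeriods :=
  CongruenceSubgroup.one_mem_strictPeriods_Gamma0 N

theorem s23_qCoeff_add (f g : CuspForm (Gamma0 N) 2) (n : ℕ) :
    qCoeff (f + g : CuspForm (Gamma0 N) 2) n = qCoeff f n + qCoeff g n := by
  unfold qCoeff
  rw [FunLike.coe_add, ModularForm.qExpansion_add one_pos s23_one_mem_sp f g]
  simp

theorem s23_qCoeff_smul (c : ℂ) (f : CuspForm (Gamma0 N) 2) (n : ℕ) :
    qCoeff (c • f : CuspForm (Gamma0 N) 2) n = c * qCoeff f n := by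
  unfold qCoeff
  rw [FunLike.coe_smul, ModularForm.qExpansion_smul one_pos s23_one_mem_sp c f]
  simp

theorem s23_eq_zero_of_qCoeff (f : CuspForm (Gamma0 N) 2) (h : ∀ n, qCoeff f n = 0) : f = 0 := by
  have hcusp : Fact (IsCusp OnePoint.infty
      (Gamma0 N : Subgroup (Matrix.GeneralLinearGroup (Fin 2) ℝ))) :=
    ⟨Subgroup.isCusp_of_mem_strictPeriods one_pos s23_one_mem_sp⟩
  have h1 : qExpansion 1 f = 0 := by
    ext n
    simpa [qCoeff] using h n
  have h2 := (UpperHalfPlane.qExpansion_eq_zero_iff (h := 1) one_pos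
    (SlashInvariantFormClass.periodic_comp_ofComplex f s23_one_mem_sp)
    (ModularFormClass.holo f) (ModularFormClass.bdd_at_infty f)).mp h1
  exact DFunLike.coe_injective h2

/-- The `q`-coefficient map as a linear map. -/
def coeffLin (N : ℕ) : CuspForm (Gamma0 N) 2 →ₗ[ℂ] (ℕ → ℂ) where
  toFun f n := qCoeff f n
  map_add' f g := by funext n; exact s23_qCoeff_add f g n
  map_smul' c f := by funext n; exact s23_qCoeff_smul c f n

theorem coeffLin_apply (f : CuspForm (Gamma0 N) 2) (n : ℕ) : coeffLin N f n = qCoeff f n := rfl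

theorem coeffLin_injective : Function.Injective (coeffLin N) := by
  rw [← LinearMap.ker_eq_bot, LinearMap.ker_eq_bot']
  intro f hf
  exact s23_eq_zero_of_qCoeff f fun n => congrFun hf n

/-- **(S23-A)** from (S23-A1) and (S23-A2). -/
theorem autStable_of [NeZero N] (hS : SemilinearStableStatement)
    (hcoord : IsCoord ℂ (xM N)) (hQ : QExpStatement N) : AutStableStatement N := by
  intro σ f
  obtain ⟨Φ, W, dj, hW, hs, hdj, hfwd, hbwd⟩ := hQ
  obtain ⟨h, hh, hf⟩ := hfwd f
  obtain ⟨s, hsx, hsc, hsΦ⟩ := hs σ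
  have hsh : s h ∈ riemannRochSpace W := hS (xM N) hcoord σ s hsc hsx W hW h hh
  obtain ⟨f', hf'⟩ := hbwd (s h) hsh
  refine ⟨f', fun n => ?_⟩
  have key : HahnSeries.ofPowerSeries ℤ ℂ (qExpansion 1 f')
      = coeffMap (σ : ℂ →+* ℂ) (HahnSeries.ofPowerSeries ℤ ℂ (qExpansion 1 f)) := by
    rw [hf', hf, map_mul, hsΦ, hdj σ]
  have := congrArg (fun S : LaurentSeries ℂ => S.coeff (n : ℤ)) key
  simp only [coeffMap_coeff, HahnSeries.ofPowerSeries_apply_coeff] at this
  exact this

/-- **S23 from the contracts.** -/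
theorem s23_of_contracts (hE : EchelonStatement) (hD : BoundedDenomStatement N)
    (hA : AutStableStatement N) (hfin : FiniteDimensional ℂ (CuspForm (Gamma0 N) 2)) :
    CuspForm.HasIntegralStructure N 2 := by
  classical
  unfold CuspForm.HasIntegralStructure
  rw [eq_top_iff]
  set L : Submodule ℂ (CuspForm (Gamma0 N) 2) :=
    Submodule.span ℂ ((CuspForm.intLattice N 2 : Submodule ℤ (CuspForm (Gamma0 N) 2)) :
      Set (CuspForm (Gamma0 N) 2)) with hL
  set V : Submodule ℂ (ℕ → ℂ) := LinearMap.range (coeffLin N) with hV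
  haveI : FiniteDimensional ℂ V := by
    rw [hV]; infer_instance
  have hstab : ∀ (σ : ℂ ≃+* ℂ) (a : ℕ → ℂ), a ∈ V → (fun n => σ (a n)) ∈ V := by
    rintro σ a ⟨f, rfl⟩
    obtain ⟨f', hf'⟩ := hA σ f
    exact ⟨f', funext fun n => hf' n⟩
  have hspan := hE V inferInstance hstab
  -- every rational member of `V` is the image of an element of `L`
  have hrat : {a : ℕ → ℂ | a ∈ V ∧ ∀ n, ∃ r : ℚ, (r : ℂ) = a n} ⊆ (L.map (coeffLin N) : Set (ℕ → ℂ)) := by
    rintro a ⟨⟨f, rfl⟩, hr⟩
    obtain ⟨D, hDpos, hDint⟩ := hD f hr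
    have hDf : ((D : ℂ) • f) ∈ L := by
      refine Submodule.subset_span (Submodule.subset_span ?_)
      intro n
      obtain ⟨m, hm⟩ := hDint n
      exact ⟨m, by rw [s23_qCoeff_smul, hm]⟩
    have hD0 : (D : ℂ) ≠ 0 := by exact_mod_cast hDpos.ne'
    have hf : f ∈ L := by
      have := L.smul_mem ((D : ℂ)⁻¹) hDf
      rwa [smul_smul, inv_mul_cancel₀ hD0, one_smul] at this
    exact ⟨f, hf, rfl⟩
  have hle : V ≤ L.map (coeffLin N) := hspan.trans (Submodule.span_le.2 hrat)
  intro f _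
  have hfV : coeffLin N f ∈ V := ⟨f, rfl⟩
  obtain ⟨f', hf', heq⟩ := hle hfV
  rwa [← coeffLin_injective heq]

end Fermat.Agent.Lib.S23
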