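import Fermat.Agent.Lib.S20.Defs
import Fermat.Prelude.Def_CuspForm_IntegralStructure

/-!
# Project S23 (integral structure on `S₂(Γ₀(N))`): shared definitions and contracts

Owner: lead.
-/

set_option autoImplicit false

noncomputable section

namespace Fermat.Agent.Lib.S23

open AlgebraicCurve ModularCurve KaehlerDifferential UpperHalfPlane ModularFormClass
open Fermat.Agent.Lib.X0 Fermat.Agent.Lib.S20
open scoped MatrixGroups

/-- (S23-B) A complex number fixed by every ring automorphism of `ℂ` is rational. -/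
def AutFixedStatement : Prop :=
  ∀ z : ℂ, (∀ σ : ℂ ≃+* ℂ, σ z = z) → ∃ r : ℚ, (r : ℂ) = z

/-- (S23-C) **Echelon descent**: a finite-dimensional space of complex sequences stable under
all coefficientwise automorphisms of `ℂ` is spanned by its rational members. -/
def EchelonStatement : Prop :=
  ∀ V : Submodule ℂ (ℕ → ℂ), FiniteDimensional ℂ V →
    (∀ (σ : ℂ ≃+* ℂ) (a : ℕ → ℂ), a ∈ V → (fun n => σ (a n)) ∈ V) →
    V ≤ Submodule.span ℂ {a : ℕ → ℂ | a ∈ V ∧ ∀ n, ∃ r : ℚ, (r : ℂ) = a n}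

/-- (S23-D) **Bounded denominators** (from S22: the Hecke algebra is a finite `ℤ`-module, and
`a_n(f) = a_1(T_n f)`). -/
def BoundedDenomStatement (N : ℕ) : Prop :=
  ∀ f : CuspForm (CongruenceSubgroup.Gamma0 N) 2, (∀ n, ∃ r : ℚ, (r : ℂ) = qCoeff f n) →
    ∃ D : ℕ, 0 < D ∧ ∀ n, ∃ m : ℤ, (m : ℂ) = (D : ℂ) * qCoeff f n

/-- (S23-A) **`Aut(ℂ)`-stability** of the space of `q`-expansions of `S₂(Γ₀(N))`. -/
def AutStableStatement (N : ℕ) : Prop :=
  ∀ (σ : ℂ ≃+* ℂ) (f : CuspForm (CongruenceSubgroup.Gamma0 N) 2),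
    ∃ f' : CuspForm (CongruenceSubgroup.Gamma0 N) 2, ∀ n, qCoeff f' n = σ (qCoeff f n)

/-- (S23-A1) generic: a semilinear field automorphism fixing the coordinate preserves
`L(div dx)`. -/
def SemilinearStableStatement : Prop :=
  ∀ {k F : Type} [Field k] [IsAlgClosed k] [CharZero k] [Field F] [Algebra k F]
    (x : F) (_ : IsCoord k x) (σ : k ≃+* k) (s : F ≃+* F)
    (_ : ∀ a : k, s (algebraMap k F a) = algebraMap k F (σ a)) (_ : s x = x)
    (W : Divisor k F) (_ : ∀ v : Place k F, W v = v.ordDifferential (D k F x))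
    (h : F), h ∈ riemannRochSpace W → s h ∈ riemannRochSpace W

/-- (S23-A2) the `q`-expansion embedding of `M_N`, its compatibility with `Aut(ℂ)` and with the
dictionary `S₂(Γ₀(N)) ↔ L(div dj)`. -/
def QExpStatement (N : ℕ) [NeZero N] : Prop :=
  ∃ (Φ : MN N →+* LaurentSeries ℂ) (W : Divisor ℂ (MN N)) (dj : LaurentSeries ℂ),
    (∀ v : Place ℂ (MN N), W v = v.ordDifferential (D ℂ (MN N) (xM N))) ∧
    (∀ σ : ℂ ≃+* ℂ, ∃ s : MN N ≃+* MN N, s (xM N) = xM N ∧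
      (∀ c : ℂ, s (algebraMap ℂ (MN N) c) = algebraMap ℂ (MN N) (σ c)) ∧
      ∀ h : MN N, Φ (s h) = coeffMap (σ : ℂ →+* ℂ) (Φ h)) ∧
    (∀ σ : ℂ ≃+* ℂ, coeffMap (σ : ℂ →+* ℂ) dj = dj) ∧
    (∀ f : CuspForm (CongruenceSubgroup.Gamma0 N) 2, ∃ h ∈ riemannRochSpace W,
      HahnSeries.ofPowerSeries ℤ ℂ (qExpansion 1 f) = Φ h * dj) ∧
    (∀ h ∈ riemannRochSpace W, ∃ f : CuspForm (CongruenceSubgroup.Gamma0 N) 2,
      HahnSeries.ofPowerSeries ℤ ℂ (qExpansion 1 f) = Φ h * dj)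

end Fermat.Agent.Lib.S23
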