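import Mathlib
import Fermat.Agent.Lib.S23.Defs

/-!
# (S23-B) A complex number fixed by all ring automorphisms of `ℂ` is rational

Owner: helper9.  Export: `h9_autFixed : AutFixedStatement`.

Method: an automorphism of the polynomial ring on a transcendence basis of `ℂ` over a subfield `R`
extends to `ℂ` (`IsAlgClosure.equivOfEquiv`).  With `R = ℚ` and a translation `X ↦ X + 1` this moves
every transcendental number; with `R` the field of algebraic numbers and the coefficientwise action
of `τ ∈ Gal(ℚ̄/ℚ)` this extends `τ` to `ℂ`, so a fixed algebraic number is Galois-fixed, hence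
rational.
-/

set_option autoImplicit false

noncomputable section

namespace Fermat.Agent.Lib.S23

open MvPolynomial

/-- Generic extension lemma: an automorphism of the polynomial ring on a transcendence basis of an
algebraically closed field extends to an automorphism of the field. -/
theorem h9_exists_ringEquiv_extending {R K ι : Type*} [CommRing R] [Field K] [IsAlgClosed K]
    [Algebra R K] (v : ι → K) (hv : IsTranscendenceBasis R v)
    (φ : MvPolynomial ι R ≃+* MvPolynomial ι R) :
    ∃ σ : K ≃+* K, ∀ p : MvPolynomial ι R, σ (aeval v p) = aeval v (φ p) := by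
  let _ := IsAlgClosed.isAlgClosure_of_transcendence_basis v hv
  let e0 : MvPolynomial ι R ≃ₐ[R] Algebra.adjoin R (Set.range v) := hv.1.aevalEquiv
  let e : Algebra.adjoin R (Set.range v) ≃+* Algebra.adjoin R (Set.range v) :=
    e0.symm.toRingEquiv.trans (φ.trans e0.toRingEquiv)
  refine ⟨IsAlgClosure.equivOfEquiv K K e, fun p => ?_⟩
  have h1 : ∀ q : MvPolynomial ι R,
      algebraMap (Algebra.adjoin R (Set.range v)) K (e0 q) = aeval v q := fun q =>
    hv.1.algebraMap_aevalEquiv q
  rw [← h1 p, IsAlgClosure.equivOfEquiv_algebraMap, ← h1 (φ p)]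
  congr 1
  simp [e]

/-- The translation automorphism `X i ↦ X i + c i` of a polynomial ring. -/
def h9_translate {R ι : Type*} [CommRing R] (c : ι → R) :
    MvPolynomial ι R ≃ₐ[R] MvPolynomial ι R :=
  AlgEquiv.ofAlgHom (aeval fun i => X i + C (c i)) (aeval fun i => X i - C (c i))
    (by ext i; simp) (by ext i; simp)

@[simp] theorem h9_translate_X {R ι : Type*} [CommRing R] (c : ι → R) (i : ι) :
    h9_translate c (X i) = X i + C (c i) := by
  simp [h9_translate]

/-- A complex number fixed by all ring automorphisms of `ℂ` is algebraic over `ℚ`. -/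
theorem h9_isAlgebraic_of_fixed (z : ℂ) (h : ∀ σ : ℂ ≃+* ℂ, σ z = z) : IsAlgebraic ℚ z := by
  by_contra hz
  have hz' : Transcendental ℚ z := hz
  have hs : AlgebraicIndepOn ℚ id ({z} : Set ℂ) :=
    algebraicIndependent_unique_type_iff.mpr hz'
  obtain ⟨t, hzt, ht⟩ := exists_isTranscendenceBasis_superset hs
  classical
  let i0 : t := ⟨z, hzt rfl⟩
  obtain ⟨σ, hσ⟩ := h9_exists_ringEquiv_extending (R := ℚ) (K := ℂ) ((↑) : t → ℂ) ht
    (h9_translate (fun i => if i = i0 then 1 else 0)).toRingEquiv
  have h1 := hσ (X i0)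
  simp at h1
  have h2 : σ z = z + 1 := h1
  rw [h σ] at h2
  simp at h2

theorem h9_isGalois_algebraicClosure_complex : IsGalois ℚ (algebraicClosure ℚ ℂ) := by
  have h : (DivisionRing.toRatAlgebra : Algebra ℚ (algebraicClosure ℚ ℂ)) =
      (algebraicClosure ℚ ℂ).algebra' := Subsingleton.elim _ _
  rw [h]
  let _ : Algebra ℚ (algebraicClosure ℚ ℂ) := (algebraicClosure ℚ ℂ).algebra'
  exact IsAlgClosure.isGalois ℚ (algebraicClosure ℚ ℂ)

/-- (S23-B) A complex number fixed by every ring automorphism of `ℂ` is rational. -/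
theorem h9_autFixed : AutFixedStatement := by
  intro z h
  have hz : IsAlgebraic ℚ z := h9_isAlgebraic_of_fixed z h
  have hzA : z ∈ (algebraicClosure ℚ ℂ) := (mem_algebraicClosure_iff).mpr hz
  have : IsGalois ℚ (algebraicClosure ℚ ℂ) := h9_isGalois_algebraicClosure_complex
  have hfix : ∀ τ : (algebraicClosure ℚ ℂ) ≃ₐ[ℚ] (algebraicClosure ℚ ℂ),
      τ ⟨z, hzA⟩ = ⟨z, hzA⟩ := by
    intro τ
    obtain ⟨ι, v, hv⟩ := exists_isTranscendenceBasis' (algebraicClosure ℚ ℂ) ℂ
    obtain ⟨σ, hσ⟩ := h9_exists_ringEquiv_extending (R := (algebraicClosure ℚ ℂ)) (K := ℂ) v hv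
      (MvPolynomial.mapEquiv ι τ.toRingEquiv)
    have h1 := hσ (C ⟨z, hzA⟩)
    simp at h1
    have h2 : σ z = ((τ ⟨z, hzA⟩ : (algebraicClosure ℚ ℂ)) : ℂ) := h1
    rw [h σ] at h2
    exact Subtype.ext h2.symm
  obtain ⟨q, hq⟩ := (InfiniteGalois.mem_range_algebraMap_iff_fixed (k := ℚ)
    (K := (algebraicClosure ℚ ℂ)) ⟨z, hzA⟩).mpr hfix
  refine ⟨q, ?_⟩
  have := congrArg (Subtype.val) hq
  simpa using this

end Fermat.Agent.Lib.S23


namespace Fermat.Agent.Lib.S23

/-- Alias under the name announced by lead (whose file of the same name was replaced by this one). -/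
theorem autFixed : AutFixedStatement := h9_autFixed

end Fermat.Agent.Lib.S23
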