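import Fermat.Agent.Lib.S23.Defs
import Fermat.Agent.Lib.Helper8.S22Assembly
import Fermat.Prelude.Def_CuspForm_HeckeAlgebra
import Fermat.Prelude.Thm_ModularFormClass_qCoeff_heckeT
import Fermat.Prelude.Thm_ModularFormClass_qCoeff_heckeU
import Fermat.Prelude.Thm_CongruenceSubgroup_one_mem_strictPeriods_Gamma0

/-!
# (S23-D) Bounded denominators

Owner: helper9.  Export: `h9_boundedDenom (N) [NeZero N] : BoundedDenomStatement N`.

A weight-2 cusp form on `Γ₀(N)` with rational `q`-coefficients has bounded denominators: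
`a_n(f) = a_1(t_n f)` for some `t_n` in the Hecke algebra, which is a finite `ℤ`-module (S22) and
preserves rationality of the coefficients.
-/

set_option autoImplicit false

namespace Fermat.Agent.Lib.S23

open CuspForm CongruenceSubgroup ModularFormClass UpperHalfPlane

variable {N : ℕ}

theorem h9_one_mem_sp :
    (1 : ℝ) ∈ ((Gamma0 N : Subgroup (Matrix.GeneralLinearGroup (Fin 2) ℝ))).strictPeriods :=
  CongruenceSubgroup.one_mem_strictPeriods_Gamma0 N

theorem h9_qCoeff_add (f g : CuspForm (Gamma0 N) 2) (n : ℕ) :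
    qCoeff (f + g : CuspForm (Gamma0 N) 2) n = qCoeff f n + qCoeff g n := by
  unfold qCoeff
  rw [FunLike.coe_add, ModularForm.qExpansion_add one_pos h9_one_mem_sp f g]
  simp

theorem h9_qCoeff_smul (c : ℂ) (f : CuspForm (Gamma0 N) 2) (n : ℕ) :
    qCoeff (c • f : CuspForm (Gamma0 N) 2) n = c * qCoeff f n := by
  unfold qCoeff
  rw [FunLike.coe_smul, ModularForm.qExpansion_smul one_pos h9_one_mem_sp c f]
  simp

theorem h9_qCoeff_zero_fun (n : ℕ) : qCoeff ((0 : CuspForm (Gamma0 N) 2)) n = 0 := by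
  have := h9_qCoeff_smul (0 : ℂ) (0 : CuspForm (Gamma0 N) 2) n
  simpa using this

theorem h9_qCoeff_sub (f g : CuspForm (Gamma0 N) 2) (n : ℕ) :
    qCoeff (f - g : CuspForm (Gamma0 N) 2) n = qCoeff f n - qCoeff g n := by
  have h1 : f - g = f + (-1 : ℂ) • g := by simp [sub_eq_add_neg]
  rw [h1, h9_qCoeff_add, h9_qCoeff_smul]; ring

theorem h9_qCoeff_zsmul (z : ℤ) (f : CuspForm (Gamma0 N) 2) (n : ℕ) :
    qCoeff (z • f : CuspForm (Gamma0 N) 2) n = z * qCoeff f n := by
  have h1 : z • f = (z : ℂ) • f := (Int.cast_smul_eq_zsmul ℂ z f).symm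
  rw [h1, h9_qCoeff_smul]

theorem h9_qCoeff_zero_eq (f : CuspForm (Gamma0 N) 2) : qCoeff f 0 = 0 := by
  unfold qCoeff
  exact CuspFormClass.qExpansion_coeff_zero f one_pos h9_one_mem_sp

theorem h9_qCoeff_heckeTLin [NeZero N] {p : ℕ} (hp : p.Prime) (hpN : ¬ p ∣ N)
    (f : CuspForm (Gamma0 N) 2) (n : ℕ) :
    qCoeff (CuspForm.heckeTLin 2 hp hpN f) n =
      qCoeff f (n * p) + if p ∣ n then (p : ℂ) * qCoeff f (n / p) else 0 := by
  rw [CuspForm.coe_heckeTLin_apply, ModularFormClass.qCoeff_heckeT f h9_one_mem_sp hp.ne_zero n,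
    ModularForm.coeffHeckeT_apply]
  norm_num

theorem h9_qCoeff_heckeULin [NeZero N] {p : ℕ} (hp : p.Prime) (hpN : p ∣ N)
    (f : CuspForm (Gamma0 N) 2) (n : ℕ) :
    qCoeff (CuspForm.heckeULin 2 hpN f) n = qCoeff f (n * p) := by
  rw [CuspForm.coe_heckeULin_apply, ModularFormClass.qCoeff_heckeU f h9_one_mem_sp hp.ne_zero n,
    ModularForm.coeffHeckeU_apply]

/-- (S23-H) The `n`-th coefficient is the first coefficient of a Hecke translate. -/
theorem h9_exists_hecke_coeff (N : ℕ) [NeZero N] (n : ℕ) (hn : 0 < n) :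
    ∃ t ∈ CuspForm.heckeAlgebra N 2 ∅, ∀ f : CuspForm (Gamma0 N) 2,
      qCoeff (t f) 1 = qCoeff f n := by
  induction n using Nat.strong_induction_on with
  | _ n ih =>
    rcases Nat.lt_or_ge n 2 with hn2 | hn2
    · have h1 : n = 1 := by omega
      subst h1
      exact ⟨1, Subalgebra.one_mem _, fun f => rfl⟩
    · have hn1 : n ≠ 1 := by omega
      set p := n.minFac with hp
      have hpp : p.Prime := Nat.minFac_prime hn1
      obtain ⟨m, hm⟩ : p ∣ n := Nat.minFac_dvd n
      have hmeq : n = m * p := by rw [hm, mul_comm]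
      have hmpos : 0 < m := by
        rcases Nat.eq_zero_or_pos m with h0 | h0
        · subst h0; omega
        · exact h0
      have hmlt : m < n := by
        rw [hmeq]; have := hpp.two_le; nlinarith
      obtain ⟨tm, htm, htm'⟩ := ih m hmlt hmpos
      by_cases hpN : p ∣ N
      · refine ⟨tm * CuspForm.heckeULin 2 hpN, Subalgebra.mul_mem _ htm
          (CuspForm.heckeULin_mem_heckeAlgebra hpp hpN (Set.notMem_empty p)), fun f => ?_⟩
        rw [Module.End.mul_apply, htm', h9_qCoeff_heckeULin hpp hpN, hmeq]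
      · by_cases hpm : p ∣ m
        · obtain ⟨m', hm'⟩ := hpm
          have hm'pos : 0 < m' := by
            rcases Nat.eq_zero_or_pos m' with h0 | h0
            · subst h0; omega
            · exact h0
          have hdiv : m / p = m' := by rw [hm']; exact Nat.mul_div_cancel_left _ hpp.pos
          have hm'lt : m' < n := by
            have : m' ≤ m := by rw [hm']; exact Nat.le_mul_of_pos_left _ hpp.pos
            omega
          obtain ⟨tm', htm'mem, htm'eq⟩ := ih m' hm'lt hm'pos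
          refine ⟨tm * CuspForm.heckeTLin 2 hpp hpN - (p : ℤ) • tm',
            Subalgebra.sub_mem _ (Subalgebra.mul_mem _ htm
              (CuspForm.heckeTLin_mem_heckeAlgebra hpp hpN (Set.notMem_empty p)))
              (Subalgebra.zsmul_mem _ htm'mem _), fun f => ?_⟩
          rw [LinearMap.sub_apply, h9_qCoeff_sub, Module.End.mul_apply, htm',
            h9_qCoeff_heckeTLin hpp hpN, if_pos ⟨m', hm'⟩, hdiv, LinearMap.smul_apply,
            h9_qCoeff_zsmul, htm'eq, hmeq]
          push_cast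
          ring
        · refine ⟨tm * CuspForm.heckeTLin 2 hpp hpN, Subalgebra.mul_mem _ htm
            (CuspForm.heckeTLin_mem_heckeAlgebra hpp hpN (Set.notMem_empty p)), fun f => ?_⟩
          rw [Module.End.mul_apply, htm', h9_qCoeff_heckeTLin hpp hpN, if_neg hpm, add_zero, hmeq]

/-- Rationality of all `q`-coefficients. -/
def h9_IsRat (f : CuspForm (Gamma0 N) 2) : Prop := ∀ n : ℕ, ∃ r : ℚ, (r : ℂ) = qCoeff f n

/-- The Hecke algebra preserves rationality of the `q`-coefficients. -/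
theorem h9_isRat_hecke (N : ℕ) [NeZero N] {t : Module.End ℂ (CuspForm (Gamma0 N) 2)}
    (ht : t ∈ CuspForm.heckeAlgebra N 2 ∅) :
    ∀ f : CuspForm (Gamma0 N) 2, h9_IsRat f → h9_IsRat (t f) := by
  unfold CuspForm.heckeAlgebra at ht
  induction ht using Algebra.adjoin_induction with
  | mem x hx =>
    intro f hf n
    rcases hx with ⟨ℓ, hℓ, hℓN, -, rfl⟩ | ⟨q, hqN, hq, -, rfl⟩
    · rw [h9_qCoeff_heckeTLin hℓ hℓN]
      obtain ⟨r1, hr1⟩ := hf (n * ℓ)
      by_cases hd : ℓ ∣ n
      · obtain ⟨r2, hr2⟩ := hf (n / ℓ)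
        refine ⟨r1 + ℓ * r2, ?_⟩
        rw [if_pos hd, ← hr1, ← hr2]
        push_cast
        ring
      · exact ⟨r1, by rw [if_neg hd, add_zero, hr1]⟩
    · rw [h9_qCoeff_heckeULin hq hqN]
      exact hf (n * q)
  | algebraMap z =>
    intro f hf n
    obtain ⟨r, hr⟩ := hf n
    refine ⟨z * r, ?_⟩
    have h1 : (algebraMap ℤ (Module.End ℂ (CuspForm (Gamma0 N) 2)) z) f = z • f := by
      rw [Algebra.algebraMap_eq_smul_one, LinearMap.smul_apply, Module.End.one_apply]
    rw [h1, h9_qCoeff_zsmul, ← hr]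
    push_cast
    ring
  | add x y _ _ hx hy =>
    intro f hf n
    obtain ⟨r1, hr1⟩ := hx f hf n
    obtain ⟨r2, hr2⟩ := hy f hf n
    refine ⟨r1 + r2, ?_⟩
    rw [LinearMap.add_apply, h9_qCoeff_add, ← hr1, ← hr2]
    push_cast
    ring
  | mul x y _ _ hx hy =>
    intro f hf
    rw [Module.End.mul_apply]
    exact hx _ (hy f hf)

/-- (S23-D) **Bounded denominators.** -/
theorem h9_boundedDenom (N : ℕ) [NeZero N] : BoundedDenomStatement N := by
  intro f hf
  have hfin : Module.Finite ℤ (CuspForm.heckeAlgebra N 2 ∅) :=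
    Fermat.Agent.Lib.Helper8.heckeAlgebra_finite_all N 2 ∅
  obtain ⟨s, hs⟩ := hfin.fg_top
  -- the first coefficients of the translates by the generators
  have hrat : ∀ x : CuspForm.heckeAlgebra N 2 ∅, ∃ r : ℚ, (r : ℂ) = qCoeff (x.1 f) 1 :=
    fun x => h9_isRat_hecke N x.2 f hf 1
  choose r hr using hrat
  let D : ℕ := ∏ x ∈ s, (r x).den
  have hDpos : 0 < D := Finset.prod_pos fun x _ => (r x).den_pos
  -- `D * a_1(x f)` is an integer for every `x` in the Hecke algebra
  have hint : ∀ x : CuspForm.heckeAlgebra N 2 ∅, ∃ m : ℤ, (m : ℂ) = (D : ℂ) * qCoeff (x.1 f) 1 := by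
    intro x
    have hx : x ∈ Submodule.span ℤ (s : Set (CuspForm.heckeAlgebra N 2 ∅)) := by
      rw [hs]; exact Submodule.mem_top
    induction hx using Submodule.span_induction with
    | mem y hy =>
      obtain ⟨e, he⟩ : (r y).den ∣ D := Finset.dvd_prod_of_mem _ hy
      refine ⟨(r y).num * e, ?_⟩
      rw [← hr y]
      have h1 : ((r y : ℚ) : ℂ) = ((r y).num : ℂ) / ((r y).den : ℂ) := by
        conv_lhs => rw [← Rat.num_div_den (r y)]
        push_cast
        rfl
      have h2 : ((r y).den : ℂ) ≠ 0 := by exact_mod_cast (r y).den_pos.ne'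
      rw [h1, he]
      push_cast
      field_simp
    | zero =>
      refine ⟨0, ?_⟩
      have : ((0 : CuspForm.heckeAlgebra N 2 ∅)).1 f = 0 := rfl
      rw [this, h9_qCoeff_zero_fun]
      simp
    | add y z _ _ hy hz =>
      obtain ⟨a, ha⟩ := hy
      obtain ⟨b, hb⟩ := hz
      refine ⟨a + b, ?_⟩
      have : ((y + z : CuspForm.heckeAlgebra N 2 ∅)).1 f = y.1 f + z.1 f := rfl
      rw [this, h9_qCoeff_add]
      push_cast
      rw [ha, hb]
      ring
    | smul c y _ hy =>
      obtain ⟨a, ha⟩ := hy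
      refine ⟨c * a, ?_⟩
      have : ((c • y : CuspForm.heckeAlgebra N 2 ∅)).1 f = c • (y.1 f) := rfl
      rw [this, h9_qCoeff_zsmul]
      push_cast
      rw [ha]
      ring
  refine ⟨D, hDpos, fun n => ?_⟩
  rcases Nat.eq_zero_or_pos n with h0 | hn
  · subst h0
    exact ⟨0, by rw [h9_qCoeff_zero_eq]; simp⟩
  · obtain ⟨t, ht, hteq⟩ := h9_exists_hecke_coeff N n hn
    obtain ⟨m, hm⟩ := hint ⟨t, ht⟩
    exact ⟨m, by rw [hm, hteq]⟩

end Fermat.Agent.Lib.S23
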