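import Fermat.Agent.Lib.S23.Defs

/-!
# (S23-C) Echelon descent (owner: helper2)

A finite-dimensional space of complex sequences stable under all coefficientwise automorphisms
of `ℂ` is spanned by its rational members (given that the `Aut(ℂ)`-fixed numbers are rational).
-/

set_option autoImplicit false

noncomputable section

namespace Fermat.Agent.Lib.S23

/-- **Echelon (pivot) basis** of a finite-dimensional space of functions `ι → K`: a finite set of
pivots `S`, members `f i` of `V` with `f i j = δ_{ij}` on `S`, and every member of `V` vanishing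
on `S` is zero. -/
theorem h2_exists_pivots {K : Type*} [Field K] {ι : Type*} [DecidableEq ι] :
    ∀ (d : ℕ) (V : Submodule K (ι → K)) [FiniteDimensional K V], Module.finrank K V = d →
    ∃ (S : Finset ι) (f : ι → (ι → K)), (∀ i ∈ S, f i ∈ V) ∧
      (∀ i ∈ S, ∀ j ∈ S, f i j = if i = j then 1 else 0) ∧
      (∀ b ∈ V, (∀ i ∈ S, b i = 0) → b = 0) := by
  intro d
  induction d using Nat.strong_induction_on with
  | _ d ih =>
    intro V _ hd
    by_cases hV : V = ⊥
    · subst hV
      exact ⟨∅, fun _ => 0, by simp, by simp, fun b hb _ => by simpa using hb⟩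
    · obtain ⟨a, haV, ha0⟩ := Submodule.exists_mem_ne_zero_of_ne_bot hV
      obtain ⟨n₀, hn₀⟩ : ∃ n, a n ≠ 0 := by
        by_contra h
        push Not at h
        exact ha0 (funext h)
      set V' : Submodule K (ι → K) :=
        V ⊓ LinearMap.ker (LinearMap.proj n₀ : (ι → K) →ₗ[K] K) with hV'
      have hmemV' : ∀ b, b ∈ V' ↔ b ∈ V ∧ b n₀ = 0 := by
        intro b
        rw [hV', Submodule.mem_inf, LinearMap.mem_ker, LinearMap.proj_apply]
      have hlt : V' < V := by
        refine lt_of_le_of_ne inf_le_left ?_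
        intro h
        have : a ∈ V' := h ▸ haV
        exact hn₀ ((hmemV' a).1 this).2
      have hfin : Module.finrank K V' < d := hd ▸ Submodule.finrank_lt_finrank_of_lt hlt
      obtain ⟨S', f', hf'V, hf'δ, hf'0⟩ := ih _ hfin V' rfl
      have hn₀S' : n₀ ∉ S' := by
        intro h
        have h1 := hf'δ n₀ h n₀ h
        rw [if_pos rfl] at h1
        have h2 := ((hmemV' _).1 (hf'V n₀ h)).2
        rw [h1] at h2
        exact one_ne_zero h2
      -- the new pivot vector
      set a₁ : ι → K := (a n₀)⁻¹ • a with ha₁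
      have ha₁V : a₁ ∈ V := V.smul_mem _ haV
      have ha₁n : a₁ n₀ = 1 := by
        rw [ha₁, Pi.smul_apply, smul_eq_mul, inv_mul_cancel₀ hn₀]
      set f₀ : ι → K := a₁ - ∑ i ∈ S', a₁ i • f' i with hf₀
      have hf₀V : f₀ ∈ V :=
        V.sub_mem ha₁V (V.sum_mem fun i hi => V.smul_mem _ ((hmemV' _).1 (hf'V i hi)).1)
      have hf₀n : f₀ n₀ = 1 := by
        rw [hf₀, Pi.sub_apply, Finset.sum_apply, ha₁n, Finset.sum_eq_zero, sub_zero]
        intro i hi
        rw [Pi.smul_apply, ((hmemV' _).1 (hf'V i hi)).2, smul_zero]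
      have hf₀j : ∀ j ∈ S', f₀ j = 0 := by
        intro j hj
        rw [hf₀, Pi.sub_apply, Finset.sum_apply, Finset.sum_eq_single j, Pi.smul_apply,
          hf'δ j hj j hj, if_pos rfl, smul_eq_mul, mul_one, sub_self]
        · intro i hi hij
          rw [Pi.smul_apply, hf'δ i hi j hj, if_neg hij, smul_zero]
        · intro h; exact absurd hj h
      refine ⟨insert n₀ S', fun i => if i = n₀ then f₀ else f' i, ?_, ?_, ?_⟩
      · intro i hi
        rcases Finset.mem_insert.1 hi with rfl | hi
        · simpa using hf₀V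
        · have : i ≠ n₀ := fun h => hn₀S' (h ▸ hi)
          simpa [this] using ((hmemV' _).1 (hf'V i hi)).1
      · intro i hi j hj
        beta_reduce
        rcases Finset.mem_insert.1 hi with hi' | hi'
        · rcases Finset.mem_insert.1 hj with hj' | hj'
          · rw [hi', hj']
            simpa using hf₀n
          · have hne : i ≠ j := fun h => hn₀S' (hi' ▸ h ▸ hj')
            rw [if_pos hi', if_neg hne]
            exact hf₀j j hj'
        · have hin : i ≠ n₀ := fun h => hn₀S' (h ▸ hi')
          rcases Finset.mem_insert.1 hj with hj' | hj'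
          · rw [if_neg hin, hj', if_neg hin]
            exact ((hmemV' _).1 (hf'V i hi')).2
          · rw [if_neg hin]
            exact hf'δ i hi' j hj'
      · intro b hbV hb
        have hbn : b n₀ = 0 := hb n₀ (Finset.mem_insert_self _ _)
        exact hf'0 b ((hmemV' b).2 ⟨hbV, hbn⟩) fun i hi => hb i (Finset.mem_insert_of_mem hi)

/-- **(S23-C) Echelon descent.** -/
theorem h2_echelon (h : AutFixedStatement) : EchelonStatement := by
  classical
  intro V hVfin hstab
  have := hVfin
  obtain ⟨S, f, hfV, hfδ, hf0⟩ := h2_exists_pivots (K := ℂ) (ι := ℕ) _ V rfl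
  -- the pivot vectors are rational
  have hrat : ∀ i ∈ S, ∀ n, ∃ r : ℚ, (r : ℂ) = f i n := by
    intro i hi n
    refine h _ fun σ => ?_
    have hg : (fun n => σ (f i n)) - f i ∈ V := V.sub_mem (hstab σ _ (hfV i hi)) (hfV i hi)
    have hz := hf0 _ hg (fun j hj => by
      rw [Pi.sub_apply, hfδ i hi j hj]
      split_ifs <;> simp)
    have := congrFun hz n
    rw [Pi.sub_apply, Pi.zero_apply, sub_eq_zero] at this
    exact this
  intro b hb
  have hb' : b = ∑ i ∈ S, b i • f i := by
    have hg : b - ∑ i ∈ S, b i • f i ∈ V :=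
      V.sub_mem hb (V.sum_mem fun i hi => V.smul_mem _ (hfV i hi))
    have hz := hf0 _ hg (fun j hj => by
      rw [Pi.sub_apply, Finset.sum_apply, Finset.sum_eq_single j, Pi.smul_apply,
        hfδ j hj j hj, if_pos rfl, smul_eq_mul, mul_one, sub_self]
      · intro i hi hij
        rw [Pi.smul_apply, hfδ i hi j hj, if_neg hij, smul_zero]
      · intro h; exact absurd hj h)
    exact sub_eq_zero.1 hz
  rw [hb']
  exact Submodule.sum_mem _ fun i hi =>
    Submodule.smul_mem _ _ (Submodule.subset_span ⟨hfV i hi, hrat i hi⟩)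

end Fermat.Agent.Lib.S23
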