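/-
Project S23, slab (S23-A2), piece (A2-b) (helper5): GENERATION `M_N = ℂ(j, J_N)`.

Generic criterion: if the `n = [F : k(x)]` local embeddings of a family take pairwise distinct
values at `y`, then `F = k(x, y)`.  Concrete: the `q_N`-expansions of `J_N = j(N ·)` along the
cosets of `Γ₀(N)` are pairwise distinct.
-/
import Mathlib
import Fermat.Agent.Lib.S20.CuspAsym
import Fermat.Agent.Lib.S20.CoordG
import Fermat.Agent.Lib.X0.Comb
import Fermat.Agent.Lib.X0.DegreeLower

set_option autoImplicit false

noncomputable section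

namespace Fermat.Agent.Lib.S23

open IntermediateField Fermat.Agent.Lib.X0 Fermat.Agent.Lib.S20
open scoped MatrixGroups

/-- **Generation criterion**: if the `n = [F : k(x)]` local embeddings take pairwise distinct
values at `y`, then `F = k(x, y)`. -/
theorem h5_adjoin_pair_eq_top {k F K' : Type} [Field k] [Field F] [Algebra k F] [Field K']
    (ι : k →+* K') (x t y : F) (hx : IsCoord k x)
    (Q : Type) [Fintype Q] (M : ℕ) (E : LocalEmb ι x t Q M)
    (hQ : Fintype.card Q = coordDegree k x)
    (hy : ∀ q q', E.τ q y = E.τ q' y → q = q') :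
    IntermediateField.adjoin k ({x, y} : Set F) = ⊤ := by
  classical
  have : FiniteDimensional (adjoin k ({x} : Set F)) F := hx.finite
  rcases isEmpty_or_nonempty Q with hQe | ⟨⟨q₀⟩⟩
  · exfalso
    rw [Fintype.card_eq_zero] at hQ
    have : 0 < coordDegree k x := Module.finrank_pos
    omega
  -- the structure of `k(x)`-algebra on the Laurent series, through `τ q₀`
  let alg : Algebra (adjoin k ({x} : Set F)) (LaurentSeries K') :=
    ((E.τ q₀).comp (algebraMap (adjoin k ({x} : Set F)) F)).toAlgebra
  have hagree : ∀ q (z : adjoin k ({x} : Set F)), E.τ q (z : F) = E.τ q₀ (z : F) := by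
    intro q z
    refine h8_agree_on_adjoin (k := k) (E.τ q) (E.τ q₀) x ?_ (E.agree q q₀) z z.2
    intro a
    rw [E.const, E.const]
  let f : Q → (F →ₐ[adjoin k ({x} : Set F)] LaurentSeries K') := fun q =>
    { (E.τ q) with
      commutes' := fun z => hagree q z }
  have hfy : ∀ q, f q y = E.τ q y := fun q => rfl
  have hint : IsIntegral (adjoin k ({x} : Set F)) y := IsIntegral.of_finite _ y
  set p := minpoly (adjoin k ({x} : Set F)) y with hp
  have hp0 : p ≠ 0 := minpoly.ne_zero hint
  have hpL : p.map (algebraMap (adjoin k ({x} : Set F)) (LaurentSeries K')) ≠ 0 :=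
    (Polynomial.map_ne_zero_iff (algebraMap (adjoin k ({x} : Set F)) (LaurentSeries K')).injective).mpr hp0
  have hroot : ∀ q, f q y ∈ (p.map (algebraMap (adjoin k ({x} : Set F)) (LaurentSeries K'))).roots := by
    intro q
    rw [Polynomial.mem_roots hpL, Polynomial.IsRoot.def, Polynomial.eval_map_algebraMap,
      Polynomial.aeval_algHom_apply, hp, minpoly.aeval, map_zero]
  have hinj : Function.Injective (fun q => f q y) := fun q q' h => hy q q' h
  have hcard : Fintype.card Q ≤ p.natDegree := by
    have h1 : (Finset.univ.image (fun q => f q y)).card ≤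
        (p.map (algebraMap (adjoin k ({x} : Set F)) (LaurentSeries K'))).natDegree := by
      apply Polynomial.card_le_degree_of_subset_roots
      intro z hz
      rw [Finset.mem_val, Finset.mem_image] at hz
      obtain ⟨q, -, rfl⟩ := hz
      exact hroot q
    rw [Finset.card_image_of_injective _ hinj, Finset.card_univ, Polynomial.natDegree_map] at h1
    exact h1
  have hfin : Module.finrank (adjoin k ({x} : Set F)) (adjoin (adjoin k ({x} : Set F)) ({y} : Set F))
      = p.natDegree := IntermediateField.adjoin.finrank hint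
  have htop : adjoin (adjoin k ({x} : Set F)) ({y} : Set F) = ⊤ := by
    apply IntermediateField.eq_of_le_of_finrank_le le_top
    rw [IntermediateField.finrank_top', hfin]
    change coordDegree k x ≤ _
    rw [← hQ]
    exact hcard
  have h2 := IntermediateField.adjoin_adjoin_left k ({x} : Set F) ({y} : Set F)
  rw [htop] at h2
  have h3 : ({x} ∪ {y} : Set F) = {x, y} := by
    ext z; simp [or_comm]
  rw [h3] at h2
  rw [← h2]
  rfl


/-- **(A2-b)** `M_N = ℂ(j, J_N)`. -/
theorem h5_MN_generated (N : ℕ) [NeZero N] :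
    IntermediateField.adjoin ℂ
      ({xM N, algebraMap (RN N) (MN N) (h5_JdRN N N dvd_rfl)} : Set (MN N)) = ⊤ := by
  classical
  have hC := h2_coordG N
  have hcomb := h8_combStatement N
  have : Finite (QN N) :=
    Nat.finite_of_card_ne_zero (by rw [hcomb.1]; exact (dedekindPsi_pos N).ne')
  have : Fintype (QN N) := Fintype.ofFinite _
  have hQ : Fintype.card (QN N) = coordDegree ℂ (xM N) := by
    rw [← Nat.card_eq_fintype_card, ← hC.2]
  refine h5_adjoin_pair_eq_top (RingHom.id ℂ) (xM N) (xM N)⁻¹ _ hC.1 (QN N) N (h5_Einfty N) hQ ?_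
  intro q q' h
  obtain ⟨g, rfl⟩ := QuotientGroup.mk_surjective q
  obtain ⟨g', rfl⟩ := QuotientGroup.mk_surjective q'
  rw [h5_Einfty_tau_mk, h5_Einfty_tau_mk] at h
  rw [QuotientGroup.eq]
  refine h5_distinct N g g' (fun z => ?_)
  have h1 := h5_psiRN_expands N g (h5_JdRN N N dvd_rfl) z
  have h2 := h5_psiRN_expands N g' (h5_JdRN N N dvd_rfl) z
  rw [h] at h1
  exact h9_LSum_val_unique h1 h2

end Fermat.Agent.Lib.S23
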