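import Mathlib
import Fermat.Agent.Lib.S23.Defs
import Fermat.Agent.Lib.S20.CuspAsym
import Fermat.Agent.Lib.X0.Kernel

/-!
# Project S23, slab (S23-A2): the `q`-expansion embedding `Φ : M_N → ℂ((q))`

Owner: helper5.
-/

set_option autoImplicit false

noncomputable section

namespace Fermat.Agent.Lib.S23

open Fermat.Agent.Lib.X0 Fermat.Agent.Lib.S20
open Function Filter Complex ModularCurve
open UpperHalfPlane hiding I
open scoped Manifold Topology Real MatrixGroups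

local notation "𝕢" => Periodic.qParam

/-! ### `q`-expansions of elements of `R_N` at `i∞` (in `q = e^{2πiτ}`) -/

theorem h5_T_mem_Gamma0 (N : ℕ) : matT ∈ CongruenceSubgroup.Gamma0 N := by
  rw [CongruenceSubgroup.Gamma0_mem]
  simp [ModularGroup.T]

theorem h5_RN_isMer_one (N : ℕ) [NeZero N] (θ : RN N) : h5_IsMer ((1 : ℕ) : ℝ) θ.1.1 := by
  refine h5_isMer_of_modGrowth 1 θ.1.2 (fun z => ?_) ?_
  · rw [pow_one]
    exact h5_RN_invariant θ matT (h5_T_mem_Gamma0 N) z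
  · have := (mem_RN.1 θ.2).2 1
    simpa only [one_smul] using this

theorem h5_posOne : (0 : ℝ) < ((1 : ℕ) : ℝ) := by norm_num

/-- `R_N` inside the ring of `1`-periodic functions meromorphic at `i∞`. -/
def h5_inclMer (N : ℕ) [NeZero N] : RN N →+* h5_merSubring ((1 : ℕ) : ℝ) h5_posOne where
  toFun θ := ⟨θ.1.1, h5_RN_isMer_one N θ⟩
  map_one' := rfl
  map_mul' _ _ := rfl
  map_zero' := rfl
  map_add' _ _ := rfl

/-- The `q`-expansion at `i∞` on `R_N`. -/
def h5_PhiR (N : ℕ) [NeZero N] : RN N →+* LaurentSeries ℂ :=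
  (h5_mexpHom ((1 : ℕ) : ℝ) h5_posOne).comp (h5_inclMer N)

theorem h5_PhiR_apply (N : ℕ) [NeZero N] (θ : RN N) :
    h5_PhiR N θ = h5_mexp ((1 : ℕ) : ℝ) θ.1.1 := rfl

theorem h5_PhiR_expands (N : ℕ) [NeZero N] (θ : RN N) :
    h9_ExpandsInfty 1 θ.1.1 (h5_PhiR N θ) :=
  h5_expandsInfty_mexp 1 (h5_RN_isMer_one N θ)

theorem h5_PhiR_injective (N : ℕ) [NeZero N] : Function.Injective (h5_PhiR N) := by
  refine (h5_mexpHom_injective h5_posOne).comp ?_
  intro θ θ' h
  apply Subtype.ext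
  apply Subtype.ext
  have h1 : ((h5_inclMer N θ : h5_merSubring ((1 : ℕ) : ℝ) h5_posOne) : ℍ → ℂ)
      = ((h5_inclMer N θ' : h5_merSubring ((1 : ℕ) : ℝ) h5_posOne) : ℍ → ℂ) :=
    congrArg Subtype.val h
  exact h1

theorem h5_PhiR_const (N : ℕ) [NeZero N] (c : ℂ) : h5_PhiR N (constRN N c) = HahnSeries.C c := by
  rw [h5_PhiR_apply]
  exact h5_mexp_const h5_posOne c

/-- The `q`-expansion embedding of the function field `M_N`. -/
def h5_Phi (N : ℕ) [NeZero N] : MN N →+* LaurentSeries ℂ :=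
  IsFractionRing.lift (h5_PhiR_injective N)

theorem h5_Phi_algebraMap (N : ℕ) [NeZero N] (θ : RN N) :
    h5_Phi N (algebraMap (RN N) (MN N) θ) = h5_PhiR N θ :=
  IsFractionRing.lift_algebraMap (h5_PhiR_injective N) θ

theorem h5_Phi_injective (N : ℕ) [NeZero N] : Function.Injective (h5_Phi N) :=
  (h5_Phi N).injective

theorem h5_Phi_const (N : ℕ) [NeZero N] (c : ℂ) :
    h5_Phi N (algebraMap ℂ (MN N) c) = HahnSeries.C c := by
  rw [IsScalarTower.algebraMap_apply ℂ (RN N) (MN N), h5_Phi_algebraMap]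
  exact h5_PhiR_const N c

/-! ### The values of `Φ` on the generators `j`, `J_N` -/

theorem h5_expands_one_jFun : h9_ExpandsInfty 1 jFun h5_jqC := by
  intro z
  have := h5_LSum_jqC z
  simpa only [Nat.cast_one] using this

theorem h5_expands_one_Jd (d : ℕ) [NeZero d] :
    h9_ExpandsInfty 1 (h9_Jd d) (qExpand ℂ d h5_jqC) := by
  intro z
  rw [h5_LSum_qExpand_iff]
  have h1 := h5_LSum_jqC (h9_dmul d z)
  rw [h1_qParam_dmul (Nat.pos_of_ne_zero (NeZero.ne d))] at h1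
  simpa only [Nat.cast_one, h9_Jd] using h1

theorem h5_Phi_xM (N : ℕ) [NeZero N] : h5_Phi N (xM N) = h5_jqC := by
  show h5_Phi N (algebraMap (RN N) (MN N) (jRN N)) = h5_jqC
  rw [h5_Phi_algebraMap]
  refine h5_expandsInfty_unique 1 (h5_PhiR_expands N (jRN N))
    (h5_expandsInfty_congr (fun z => ?_) h5_expands_one_jFun)
  rw [h5_jRN_apply]

theorem h5_Phi_JN (N : ℕ) [NeZero N] :
    h5_Phi N (algebraMap (RN N) (MN N) (h5_JdRN N N dvd_rfl)) = qExpand ℂ N h5_jqC := by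
  rw [h5_Phi_algebraMap]
  refine h5_expandsInfty_unique 1 (h5_PhiR_expands N (h5_JdRN N N dvd_rfl))
    (h5_expandsInfty_congr (fun z => ?_) (h5_expands_one_Jd N))
  rw [h5_JdRN_apply]

/-! ### Rational series are fixed by `coeffMap σ` -/

theorem h5_coeffMap_jqC (σ : ℂ →+* ℂ) : coeffMap σ h5_jqC = h5_jqC := by
  rw [h5_jqC, coeffMap_coeffMap]
  exact coeffMap_congr (Subsingleton.elim _ _) _

theorem h5_coeffMap_qExpand_jqC (σ : ℂ →+* ℂ) (d : ℕ) [NeZero d] :
    coeffMap σ (qExpand ℂ d h5_jqC) = qExpand ℂ d h5_jqC := by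
  rw [h1_coeffMap_qExpand, h5_coeffMap_jqC]

/-- A Laurent series with rational coefficients is fixed by `coeffMap σ`. -/
theorem h5_coeffMap_of_rational (σ : ℂ →+* ℂ) (S : LaurentSeries ℂ)
    (hS : ∀ n : ℤ, ∃ r : ℚ, (r : ℂ) = S.coeff n) : coeffMap σ S = S := by
  ext n
  obtain ⟨r, hr⟩ := hS n
  rw [coeffMap_coeff, ← hr, map_ratCast]

end Fermat.Agent.Lib.S23
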