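import Mathlib

/-!
# Project S23, slab (S23-A2): transport of an automorphism of the target along an embedding

Owner: helper5.  Mathlib-only.
-/

set_option autoImplicit false

namespace Fermat.Agent.Lib.S23

open IntermediateField

/-- If `T` maps `Φ(constants)`, `Φ x`, `Φ y` into `Φ(F)` and `F = k(x, y)`, then `T` maps `Φ(F)`
into `Φ(F)`. -/
theorem h5_range_stable {k F L : Type*} [Field k] [Field F] [Algebra k F] [Field L]
    (Φ : F →+* L) (T : L →+* L) (x y : F)
    (hgen : IntermediateField.adjoin k ({x, y} : Set F) = ⊤)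
    (hc : ∀ c : k, ∃ h' : F, Φ h' = T (Φ (algebraMap k F c)))
    (hx : ∃ h' : F, Φ h' = T (Φ x)) (hy : ∃ h' : F, Φ h' = T (Φ y)) (h : F) :
    ∃ h' : F, Φ h' = T (Φ h) := by
  let K₁ : IntermediateField k F :=
    { carrier := {h | ∃ h' : F, Φ h' = T (Φ h)}
      mul_mem' := by
        rintro a b ⟨a', ha⟩ ⟨b', hb⟩
        exact ⟨a' * b', by rw [map_mul, map_mul, map_mul, ha, hb]⟩
      one_mem' := ⟨1, by simp⟩
      add_mem' := by
        rintro a b ⟨a', ha⟩ ⟨b', hb⟩
        exact ⟨a' + b', by rw [map_add, map_add, map_add, ha, hb]⟩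
      zero_mem' := ⟨0, by simp⟩
      algebraMap_mem' := hc
      inv_mem' := by
        rintro a ⟨a', ha⟩
        exact ⟨a'⁻¹, by rw [map_inv₀, map_inv₀, map_inv₀, ha]⟩ }
  have hle : IntermediateField.adjoin k ({x, y} : Set F) ≤ K₁ := by
    rw [IntermediateField.adjoin_le_iff]
    rintro z hz
    rcases hz with rfl | hz
    · exact hx
    · rw [Set.mem_singleton_iff] at hz
      subst hz
      exact hy
  have : h ∈ K₁ := hle (by rw [hgen]; exact IntermediateField.mem_top)
  exact this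

/-- **Transport**: an automorphism `T` of the target which is `σ`-semilinear on `Φ(constants)` and
fixes `Φ x`, `Φ y`, where `F = k(x, y)`, comes from an automorphism `s` of `F`. -/
theorem h5_transport {k F L : Type*} [Field k] [Field F] [Algebra k F] [Field L]
    (Φ : F →+* L) (T : L ≃+* L) (σ : k ≃+* k) (x y : F)
    (hgen : IntermediateField.adjoin k ({x, y} : Set F) = ⊤)
    (hc : ∀ c : k, T (Φ (algebraMap k F c)) = Φ (algebraMap k F (σ c)))
    (hx : T (Φ x) = Φ x) (hy : T (Φ y) = Φ y) :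
    ∃ s : F ≃+* F, s x = x ∧ (∀ c : k, s (algebraMap k F c) = algebraMap k F (σ c)) ∧
      ∀ h : F, Φ (s h) = T (Φ h) := by
  classical
  have hΦ : Function.Injective Φ := Φ.injective
  have h1 : ∀ h : F, ∃ h' : F, Φ h' = T (Φ h) :=
    h5_range_stable Φ (T : L →+* L) x y hgen (fun c => ⟨_, (hc c).symm⟩) ⟨x, hx.symm⟩ ⟨y, hy.symm⟩
  have hc' : ∀ c : k, T.symm (Φ (algebraMap k F c)) = Φ (algebraMap k F (σ.symm c)) := by
    intro c
    rw [RingEquiv.symm_apply_eq, hc, RingEquiv.apply_symm_apply]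
  have h2 : ∀ h : F, ∃ h' : F, Φ h' = T.symm (Φ h) :=
    h5_range_stable Φ (T.symm : L →+* L) x y hgen (fun c => ⟨_, (hc' c).symm⟩)
      ⟨x, by show Φ x = T.symm (Φ x); rw [RingEquiv.eq_symm_apply, hx]⟩
      ⟨y, by show Φ y = T.symm (Φ y); rw [RingEquiv.eq_symm_apply, hy]⟩
  choose s hs using h1
  choose s' hs' using h2
  have hleft : ∀ h, s' (s h) = h := fun h => hΦ (by rw [hs', hs, RingEquiv.symm_apply_apply])
  have hright : ∀ h, s (s' h) = h := fun h => hΦ (by rw [hs, hs', RingEquiv.apply_symm_apply])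
  let e : F ≃+* F :=
    { toFun := s
      invFun := s'
      left_inv := hleft
      right_inv := hright
      map_mul' := fun a b => hΦ (by rw [hs, map_mul, map_mul, map_mul, hs, hs])
      map_add' := fun a b => hΦ (by rw [hs, map_add, map_add, map_add, hs, hs]) }
  refine ⟨e, hΦ ?_, fun c => hΦ ?_, hs⟩
  · show Φ (s x) = Φ x
    rw [hs, hx]
  · show Φ (s (algebraMap k F c)) = Φ (algebraMap k F (σ c))
    rw [hs, hc]

end Fermat.Agent.Lib.S23
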