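import Mathlib
import Fermat.Agent.Lib.S23.QExpPhi
import Fermat.Agent.Lib.S23.Transport
import Fermat.Agent.Lib.S20.DictDj
import Fermat.Prelude.Thm_CongruenceSubgroup_one_mem_strictPeriods_Gamma0

/-!
# Project S23, slab (S23-A2): `QExpStatement N` from generation and the explicit dictionary

Owner: helper5.
-/

set_option autoImplicit false

noncomputable section

namespace Fermat.Agent.Lib.S23

open Fermat.Agent.Lib.X0 Fermat.Agent.Lib.S20
open Function Filter Complex ModularCurve ModularForm EisensteinSeries AlgebraicCurve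
  KaehlerDifferential
open UpperHalfPlane hiding I
open scoped Manifold Topology Real MatrixGroups

local notation "𝕢" => Periodic.qParam

/-! ### `coeffMap σ` as an automorphism -/

/-- `coeffMap σ` as a ring automorphism of `ℂ((q))`. -/
def h5_coeffEquiv (σ : ℂ ≃+* ℂ) : LaurentSeries ℂ ≃+* LaurentSeries ℂ :=
  { (coeffMap (σ : ℂ →+* ℂ)) with
    invFun := coeffMap (σ.symm : ℂ →+* ℂ)
    left_inv := fun S => by
      show coeffMap (σ.symm : ℂ →+* ℂ) (coeffMap (σ : ℂ →+* ℂ) S) = S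
      rw [coeffMap_coeffMap]
      ext n
      simp
    right_inv := fun S => by
      show coeffMap (σ : ℂ →+* ℂ) (coeffMap (σ.symm : ℂ →+* ℂ) S) = S
      rw [coeffMap_coeffMap]
      ext n
      simp }

theorem h5_coeffEquiv_apply (σ : ℂ ≃+* ℂ) (S : LaurentSeries ℂ) :
    h5_coeffEquiv σ S = coeffMap (σ : ℂ →+* ℂ) S := rfl

theorem h5_coeffMap_C (σ : ℂ →+* ℂ) (c : ℂ) :
    coeffMap σ (HahnSeries.C c) = HahnSeries.C (σ c) := by
  rw [HahnSeries.C_apply, coeffMap_single, HahnSeries.C_apply]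

/-- The automorphism of `M_N` induced by `σ ∈ Aut(ℂ)` through `q`-expansions. -/
theorem h5_exists_s (N : ℕ) [NeZero N]
    (hgen : IntermediateField.adjoin ℂ
      ({xM N, algebraMap (RN N) (MN N) (h5_JdRN N N dvd_rfl)} : Set (MN N)) = ⊤)
    (σ : ℂ ≃+* ℂ) :
    ∃ s : MN N ≃+* MN N, s (xM N) = xM N ∧
      (∀ c : ℂ, s (algebraMap ℂ (MN N) c) = algebraMap ℂ (MN N) (σ c)) ∧
      ∀ h : MN N, h5_Phi N (s h) = coeffMap (σ : ℂ →+* ℂ) (h5_Phi N h) := by
  refine h5_transport (h5_Phi N) (h5_coeffEquiv σ) σ (xM N)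
    (algebraMap (RN N) (MN N) (h5_JdRN N N dvd_rfl)) hgen (fun c => ?_) ?_ ?_
  · rw [h5_coeffEquiv_apply, h5_Phi_const, h5_Phi_const, h5_coeffMap_C]
    rfl
  · rw [h5_coeffEquiv_apply, h5_Phi_xM, h5_coeffMap_jqC]
  · rw [h5_coeffEquiv_apply, h5_Phi_JN, h5_coeffMap_qExpand_jqC]

/-! ### Regular functions: `h5_mexp` is the `q`-expansion -/

theorem h5_mexp_of_isReg {h : ℝ} (hh : 0 < h) {F : ℍ → ℂ} (hF : h5_IsReg h F) :
    h5_mexp h F = HahnSeries.ofPowerSeries ℤ ℂ (qExpansion h F) := by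
  have hF' : h5_IsReg h (F * h5_qpow h 0) := by rw [h5_qpow_zero, mul_one]; exact hF
  rw [h5_mexp_eq hh hF']
  unfold h5_lexp
  rw [h5_qpow_zero, mul_one]
  simp

theorem h5_isReg_modularForm {k : ℤ} (f : ModularForm 𝒮ℒ k) : h5_IsReg ((1 : ℕ) : ℝ) f where
  per := by
    rw [Nat.cast_one]
    exact SlashInvariantFormClass.periodic_comp_ofComplex f one_mem_strictPeriods_SL
  hol := ModularFormClass.holo f
  bdd := ModularFormClass.bdd_at_infty f

theorem h5_isReg_cuspForm (N : ℕ) (f : CuspForm (CongruenceSubgroup.Gamma0 N) 2) :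
    h5_IsReg ((1 : ℕ) : ℝ) f where
  per := by
    rw [Nat.cast_one]
    exact SlashInvariantFormClass.periodic_comp_ofComplex f
      (CongruenceSubgroup.one_mem_strictPeriods_Gamma0 N)
  hol := CuspFormClass.holo f
  bdd := by
    have : Fact (IsCusp OnePoint.infty
        ((CongruenceSubgroup.Gamma0 N : Subgroup SL(2, ℤ)) :
          Subgroup (Matrix.GeneralLinearGroup (Fin 2) ℝ))) :=
      ⟨Subgroup.isCusp_of_mem_strictPeriods one_pos
        (CongruenceSubgroup.one_mem_strictPeriods_Gamma0 N)⟩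
    exact ModularFormClass.bdd_at_infty f

/-! ### The series `dj` (the `q`-expansion of `Dj = q dj/dq`) and its rationality -/

theorem h5_coeffMap_ofPowerSeries_rational (σ : ℂ →+* ℂ) (A : PowerSeries ℂ)
    (hA : ∀ n : ℕ, ∃ r : ℚ, (r : ℂ) = PowerSeries.coeff n A) :
    coeffMap σ (HahnSeries.ofPowerSeries ℤ ℂ A) = HahnSeries.ofPowerSeries ℤ ℂ A := by
  rw [h5_coeffMap_ofPowerSeries]
  congr 1
  ext n
  obtain ⟨r, hr⟩ := hA n
  rw [PowerSeries.coeff_map, ← hr, map_ratCast]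

theorem h5_E_qExpansion_rational {k : ℕ} (hk : 3 ≤ k) (hk2 : Even k) (n : ℕ) :
    ∃ r : ℚ, (r : ℂ) = PowerSeries.coeff n (qExpansion 1 (E hk)) := by
  rw [E_qExpansion_coeff hk hk2]
  by_cases hn : n = 0
  · exact ⟨1, by simp [hn]⟩
  · refine ⟨-(2 * k / bernoulli k) * (ArithmeticFunction.sigma (k - 1) n : ℚ), ?_⟩
    rw [if_neg hn]
    push_cast
    ring

theorem h5_Dj_isMer : h5_IsMer ((1 : ℕ) : ℝ) h3_Dj := by
  refine h5_isMer_of_modGrowth 1 h3_Dj_mdiff (fun z => ?_) ⟨1, ?_⟩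
  · rw [pow_one, h3_Dj_smul]
    have : denom (matT : SL(2, ℤ)) z = 1 := by
      rw [ModularGroup.denom_apply]
      simp [ModularGroup.T]
    rw [this, one_pow, one_mul]
  · have h1 : IsBoundedAtImInfty (fun τ : ℍ => -(E₄ τ ^ 2 * E₆ τ)) := by
      have h4 : IsBoundedAtImInfty (E₄ : ℍ → ℂ) := ModularFormClass.bdd_at_infty E₄
      have h6 : IsBoundedAtImInfty (E₆ : ℍ → ℂ) := ModularFormClass.bdd_at_infty E₆
      exact ((h4.mul h4).mul h6).neg_left.congr_left (fun τ => by simp [pow_two])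
    refine h1.congr_left (fun τ => ?_)
    have hΔ : ModularForm.discriminant τ ≠ 0 := ModularForm.discriminant_ne_zero τ
    simp only [h3_Dj, pow_one]
    field_simp

/-- The `q`-expansion of `Dj = (2πi)⁻¹ dj/dτ`. -/
def h5_dj : LaurentSeries ℂ := h5_mexp ((1 : ℕ) : ℝ) h3_Dj

theorem h5_jFun_isMer : h5_IsMer ((1 : ℕ) : ℝ) jFun := by
  have := h5_RN_isMer_one 1 (jRN 1)
  have e : (jRN 1).1.1 = jFun := funext (fun z => h5_jRN_apply 1 z)
  rwa [e] at this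

theorem h5_mexp_jFun : h5_mexp ((1 : ℕ) : ℝ) jFun = h5_jqC :=
  h5_expandsInfty_unique 1 (h5_expandsInfty_mexp 1 h5_jFun_isMer) h5_expands_one_jFun

theorem h5_dj_mul : h5_dj * HahnSeries.ofPowerSeries ℤ ℂ (qExpansion 1 E₄)
    = -(HahnSeries.ofPowerSeries ℤ ℂ (qExpansion 1 E₆) * h5_jqC) := by
  have h4 := h5_isReg_modularForm E₄
  have h6 := h5_isReg_modularForm E₆
  have e : h3_Dj * (E₄ : ℍ → ℂ) = -((E₆ : ℍ → ℂ) * jFun) := by
    funext τ
    have hΔ : ModularForm.discriminant τ ≠ 0 := ModularForm.discriminant_ne_zero τ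
    simp only [Pi.mul_apply, Pi.neg_apply, h3_Dj, jFun]
    field_simp
  have h1 := h5_mexp_mul h5_posOne h5_Dj_isMer h4.isMer
  have h2 := h5_mexp_mul h5_posOne h6.isMer h5_jFun_isMer
  rw [e] at h1
  have h3 : h5_mexp ((1 : ℕ) : ℝ) (-((E₆ : ℍ → ℂ) * jFun))
      = -h5_mexp ((1 : ℕ) : ℝ) ((E₆ : ℍ → ℂ) * jFun) := by
    have hm := (h6.isMer.mul h5_jFun_isMer)
    have := map_neg (h5_mexpHom ((1 : ℕ) : ℝ) h5_posOne) ⟨_, hm⟩
    exact this
  rw [h3, h2, h5_mexp_of_isReg h5_posOne h4, h5_mexp_of_isReg h5_posOne h6, h5_mexp_jFun] at h1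
  unfold h5_dj
  simp only [Nat.cast_one] at h1 ⊢
  exact h1.symm

theorem h5_coeffMap_dj (σ : ℂ →+* ℂ) : coeffMap σ h5_dj = h5_dj := by
  have h4 : HahnSeries.ofPowerSeries ℤ ℂ (qExpansion 1 E₄) ≠ 0 := by
    intro h0
    have := congrArg (fun S : LaurentSeries ℂ => S.coeff ((0 : ℕ) : ℤ)) h0
    simp only [HahnSeries.ofPowerSeries_apply_coeff, HahnSeries.coeff_zero] at this
    rw [E_qExpansion_coeff_zero _ ⟨2, rfl⟩] at this
    exact one_ne_zero this
  have h1 := congrArg (coeffMap σ) h5_dj_mul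
  rw [map_mul, map_neg, map_mul,
    h5_coeffMap_ofPowerSeries_rational σ _ (h5_E_qExpansion_rational _ ⟨2, rfl⟩),
    h5_coeffMap_ofPowerSeries_rational σ _ (h5_E_qExpansion_rational _ ⟨3, rfl⟩),
    h5_coeffMap_jqC, ← h5_dj_mul] at h1
  exact mul_right_cancel₀ h4 h1

/-! ### Compatibility with the dictionary and the final assembly -/

/-- If `f = (a / b) · Dj` as functions, then `q-exp(f) = Φ(a / b) · dj`. -/
theorem h5_qExpansion_eq_Phi_mul_dj (N : ℕ) [NeZero N]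
    (f : CuspForm (CongruenceSubgroup.Gamma0 N) 2) (a b : RN N) (hb : b ≠ 0)
    (hab : ∀ τ : ℍ, b.1.1 τ * f τ = a.1.1 τ * h3_Dj τ) :
    HahnSeries.ofPowerSeries ℤ ℂ (qExpansion 1 f)
      = h5_Phi N (algebraMap (RN N) (MN N) a / algebraMap (RN N) (MN N) b) * h5_dj := by
  have hf := h5_isReg_cuspForm N f
  have e : b.1.1 * (f : ℍ → ℂ) = a.1.1 * h3_Dj := funext hab
  have h1 := h5_mexp_mul h5_posOne (h5_RN_isMer_one N b) hf.isMer
  have h2 := h5_mexp_mul h5_posOne (h5_RN_isMer_one N a) h5_Dj_isMer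
  rw [e, h2, h5_mexp_of_isReg h5_posOne hf] at h1
  have hb0 : h5_PhiR N b ≠ 0 := fun h0 =>
    hb ((h5_PhiR_injective N) (by rw [h0, map_zero]))
  rw [map_div₀, h5_Phi_algebraMap, h5_Phi_algebraMap, h5_PhiR_apply, h5_PhiR_apply]
  rw [h5_PhiR_apply] at hb0
  unfold h5_dj
  simp only [Nat.cast_one] at h1 hb0 ⊢
  field_simp
  rw [h1]
  ring

/-- **(S23-A2)** from generation of `M_N` by `j`, `J_N` and the explicit dictionary. -/
theorem h5_qExp_of (N : ℕ) [NeZero N]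
    (hgen : IntermediateField.adjoin ℂ
      ({xM N, algebraMap (RN N) (MN N) (h5_JdRN N N dvd_rfl)} : Set (MN N)) = ⊤)
    (W : Divisor ℂ (MN N))
    (hW : ∀ v : Place ℂ (MN N), W v = v.ordDifferential (D ℂ (MN N) (xM N)))
    (hfwd : ∀ f : CuspForm (CongruenceSubgroup.Gamma0 N) 2, ∃ a b : RN N, b ≠ 0 ∧
      algebraMap (RN N) (MN N) a / algebraMap (RN N) (MN N) b ∈ riemannRochSpace W ∧
      ∀ τ : ℍ, b.1.1 τ * f τ = a.1.1 τ * h3_Dj τ)
    (hbwd : ∀ h ∈ riemannRochSpace W, ∃ (f : CuspForm (CongruenceSubgroup.Gamma0 N) 2)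
      (a b : RN N), b ≠ 0 ∧
      h = algebraMap (RN N) (MN N) a / algebraMap (RN N) (MN N) b ∧
      ∀ τ : ℍ, b.1.1 τ * f τ = a.1.1 τ * h3_Dj τ) :
    QExpStatement N := by
  refine ⟨h5_Phi N, W, h5_dj, hW, fun σ => h5_exists_s N hgen σ,
    fun σ => h5_coeffMap_dj (σ : ℂ →+* ℂ), fun f => ?_, fun h hh => ?_⟩
  · obtain ⟨a, b, hb, hmem, hab⟩ := hfwd f
    exact ⟨_, hmem, h5_qExpansion_eq_Phi_mul_dj N f a b hb hab⟩
  · obtain ⟨f, a, b, hb, rfl, hab⟩ := hbwd h hh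
    exact ⟨f, h5_qExpansion_eq_Phi_mul_dj N f a b hb hab⟩

end Fermat.Agent.Lib.S23
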