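import Fermat.Agent.Lib.S23.Defs
import Fermat.Agent.Lib.X0.PlacesProof
import Fermat.Agent.Lib.X0.DictFG

/-!
# Project S23, piece (S23-A1): semilinear automorphisms preserve `L(div dx)` (owner: lead)
-/

set_option autoImplicit false

noncomputable section

namespace Fermat.Agent.Lib.S23

open AlgebraicCurve KaehlerDifferential
open Fermat.Agent.Lib.X0 Fermat.Agent.Lib.S20

section Transport

variable {k F : Type} [Field k] [Field F] [Algebra k F]

/-- The ring isomorphism between a valuation subring and its image under a field automorphism. -/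
def subringEquiv (A : ValuationSubring F) (s : F ≃+* F) :
    A ≃+* (A.comap (s.symm : F →+* F)) where
  toFun a := ⟨s a, by
    show (s.symm : F →+* F) (s a) ∈ A
    simp⟩
  invFun b := ⟨s.symm b, b.2⟩
  left_inv a := by ext; simp
  right_inv b := by ext; simp
  map_mul' a b := by ext; simp
  map_add' a b := by ext; simp

@[simp] theorem subringEquiv_coe (A : ValuationSubring F) (s : F ≃+* F) (a : A) :
    ((subringEquiv A s a : A.comap (s.symm : F →+* F)) : F) = s (a : F) := rfl

/-- Transport of a place along a semilinear field automorphism. -/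
def mapPlace (σ : k ≃+* k) (s : F ≃+* F)
    (hs : ∀ a : k, s (algebraMap k F a) = algebraMap k F (σ a)) (v : Place k F) : Place k F where
  toValuationSubring := v.toValuationSubring.comap (s.symm : F →+* F)
  algebraMap_mem' a := by
    show (s.symm : F →+* F) (algebraMap k F a) ∈ v.toValuationSubring
    have : s.symm (algebraMap k F a) = algebraMap k F (σ.symm a) := by
      rw [RingEquiv.symm_apply_eq, hs, RingEquiv.apply_symm_apply]
    rw [RingEquiv.coe_toRingHom, this]
    exact v.algebraMap_mem' _
  ne_top' := by
    intro h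
    apply v.ne_top'
    refine SetLike.ext fun y => ⟨fun _ => ValuationSubring.mem_top y, fun _ => ?_⟩
    have : s y ∈ v.toValuationSubring.comap (s.symm : F →+* F) := by
      rw [h]; exact ValuationSubring.mem_top _
    have h2 : (s.symm : F →+* F) (s y) ∈ v.toValuationSubring := this
    simpa using h2
  isPrincipalIdealRing' :=
    IsPrincipalIdealRing.of_surjective (subringEquiv v.toValuationSubring s).toRingHom
      (subringEquiv v.toValuationSubring s).surjective

theorem mapPlace_toValuationSubring (σ : k ≃+* k) (s : F ≃+* F)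
    (hs : ∀ a : k, s (algebraMap k F a) = algebraMap k F (σ a)) (v : Place k F) :
    (mapPlace σ s hs v).toValuationSubring = v.toValuationSubring.comap (s.symm : F →+* F) := rfl

/-- `ord_{s•v}(s f) = ord_v f`. -/
theorem ord_mapPlace (σ : k ≃+* k) (s : F ≃+* F)
    (hs : ∀ a : k, s (algebraMap k F a) = algebraMap k F (σ a)) (v : Place k F) (f : F) :
    (mapPlace σ s hs v).ord (s f) = v.ord f := by
  rcases eq_or_ne f 0 with rfl | hf
  · simp
  obtain ⟨π, hπ⟩ := IsDiscreteValuationRing.exists_irreducible v.toValuationSubring
  obtain ⟨u, hu⟩ := v.exists_unit_mul_zpow hf hπ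
  set e := subringEquiv v.toValuationSubring s with he
  have hπ' : Irreducible (e π) := (MulEquiv.irreducible_iff e.toMulEquiv).2 hπ
  let u' : ((mapPlace σ s hs v).toValuationSubring)ˣ := Units.map e.toRingHom.toMonoidHom u
  let π' : (mapPlace σ s hs v).toValuationSubring := e π
  have hu' : ((u' : (mapPlace σ s hs v).toValuationSubring) : F)
      = s ((u : v.toValuationSubring) : F) := rfl
  have hπF : (π' : F) = s (π : F) := rfl
  have hsf : s f = ((u' : (mapPlace σ s hs v).toValuationSubring) : F)
      * ((π' : F) ^ (v.ord f)) := by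
    conv_lhs => rw [hu]
    rw [map_mul, map_zpow₀, hu', hπF]
  rw [hsf]
  exact (mapPlace σ s hs v).ord_unit_smul_zpow u' (π := π') hπ' _

theorem mapPlace_symm (σ : k ≃+* k) (s : F ≃+* F)
    (hs : ∀ a : k, s (algebraMap k F a) = algebraMap k F (σ a))
    (hs' : ∀ a : k, s.symm (algebraMap k F a) = algebraMap k F (σ.symm a)) (v : Place k F) :
    mapPlace σ s hs (mapPlace σ.symm s.symm hs' v) = v := by
  apply Place.ext
  rw [mapPlace_toValuationSubring, mapPlace_toValuationSubring]
  ext y
  simp [ValuationSubring.mem_comap]

end Transport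

section Main

variable {k F : Type} [Field k] [IsAlgClosed k] [CharZero k] [Field F] [Algebra k F]

/-- The divisor of `dx` is invariant under transport along a semilinear automorphism fixing `x`. -/
theorem ordDifferential_mapPlace (x : F) (hx : IsCoord k x) (σ : k ≃+* k) (s : F ≃+* F)
    (hs : ∀ a : k, s (algebraMap k F a) = algebraMap k F (σ a)) (hsx : s x = x)
    (v : Place k F) :
    (mapPlace σ s hs v).ordDifferential (D k F x) = v.ordDifferential (D k F x) := by
  obtain ⟨-, huniq, -, -⟩ := h4_places x hx
  obtain ⟨-, -, -, hfin, hinf⟩ := h4_differential x hx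
  by_cases hvx : 0 ≤ v.ord x
  · obtain ⟨c, hc, -⟩ := huniq v hvx
    have h1 : (mapPlace σ s hs v).ord (x - algebraMap k F (σ c)) = v.ord (x - algebraMap k F c) := by
      rw [← ord_mapPlace σ s hs v (x - algebraMap k F c), map_sub, hsx, hs]
    rw [hfin v c hc, hfin (mapPlace σ s hs v) (σ c) (by rw [h1]; exact hc), h1]
  · have hv : v.ord x < 0 := not_le.1 hvx
    have h1 : (mapPlace σ s hs v).ord x = v.ord x := by
      rw [← ord_mapPlace σ s hs v x, hsx]
    rw [hinf v hv, hinf (mapPlace σ s hs v) (by rw [h1]; exact hv), h1]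

/-- **(S23-A1)**. -/
theorem semilinearStable : SemilinearStableStatement := by
  intro k F _ _ _ _ _ x hx σ s hs hsx W hW h hh
  rw [mem_riemannRochSpace_iff] at hh ⊢
  intro v'
  have hs' : ∀ a : k, s.symm (algebraMap k F a) = algebraMap k F (σ.symm a) := by
    intro a
    rw [RingEquiv.symm_apply_eq, hs, RingEquiv.apply_symm_apply]
  set v := mapPlace σ.symm s.symm hs' v' with hv
  have hv' : mapPlace σ s hs v = v' := mapPlace_symm σ s hs hs' v'
  rcases hh v with h0 | hle
  · left; rw [h0, map_zero]
  · right
    have hW' : W v' = W v := by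
      rw [hW, hW, ← hv', ordDifferential_mapPlace x hx σ s hs hsx v]
    rw [hW', ← hv', ord_mapPlace σ s hs v h]
    exact hle

end Main

end Fermat.Agent.Lib.S23
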