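/-
Project S23, slab (S23-A2) (helper5): `QExpStatement N` CLOSED, and with it (S23-A)
`AutStableStatement N`.
-/
import Mathlib
import Fermat.Agent.Lib.S23.QExpFinal
import Fermat.Agent.Lib.S23.Generation
import Fermat.Agent.Lib.S23.Semilinear
import Fermat.Agent.Lib.S23.Assembly
import Fermat.Agent.Lib.S20.CanonicalW
import Fermat.Agent.Lib.S20.CFiniteM
import Fermat.Agent.Lib.S20.DictExplicit

set_option autoImplicit false

noncomputable section

namespace Fermat.Agent.Lib.S23

open UpperHalfPlane hiding I
open Complex ModularForm AlgebraicCurve KaehlerDifferential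
open Fermat.Agent.Lib.X0 Fermat.Agent.Lib.S20
open scoped MatrixGroups ModularForm

/-- A divisor of the differential `dj` on `M_N` exists. -/
theorem h5_exists_W (N : ℕ) [NeZero N] : ∃ W : Divisor ℂ (MN N),
    ∀ v : Place ℂ (MN N), W v = v.ordDifferential (D ℂ (MN N) (xM N)) := by
  classical
  have hC := h2_coordG N
  have hcomb := h8_combStatement N
  have : Finite (QN N) :=
    Nat.finite_of_card_ne_zero (by rw [hcomb.1]; exact (dedekindPsi_pos N).ne')
  have : Fintype (QN N) := Fintype.ofFinite _
  have hQ : Fintype.card (QN N) = coordDegree ℂ (xM N) := by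
    rw [← Nat.card_eq_fintype_card, ← hC.2]
  exact h6_exists_divisor_dx (RingHom.id ℂ) (xM N) hC.1 N hQ (h2_cFiniteG N)

/-- **(S23-A2)** the `q`-expansion contract. -/
theorem h5_qExp (N : ℕ) [NeZero N] : QExpStatement N := by
  obtain ⟨W, hW⟩ := h5_exists_W N
  exact h5_qExp_of N (h5_MN_generated N) W hW (h8_dict_fwd N W hW) (h8_dict_bwd N W hW)

/-- **(S23-A)** `Aut(ℂ)`-stability of the `q`-expansions of `S₂(Γ₀(N))`. -/
theorem h5_autStable (N : ℕ) [NeZero N] : AutStableStatement N :=
  autStable_of semilinearStable (h2_coordG N).1 (h5_qExp N)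

end Fermat.Agent.Lib.S23
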